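import Fermat.Agent.S14.Spec

/-!
# S14 block B6 — the core arithmetic theorem for `p = 3` (`Spec.CAT3Statement`)

`K = ℚ(ζ₃)` has class number one and unit group `{±1, ±ζ, ±ζ²}`.  Hence a nonzero
`α ∈ 𝓞 K` whose ideal is a cube is of the shape `α = ε · ζ^r · γ³`; the type-`ω²`
condition for complex conjugation (`σ ζ = ζ²`, exponent `2² = 4`) forces `ζ^{2r}` to be a
cube in `K`, whence `3 ∣ r` because `K` has no primitive ninth root of unity.
-/

set_option autoImplicit false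

open NumberField

namespace Fermat.Agent.S14.H178

open Fermat.Agent.S14

/-- Core computation in the field `K = ℚ(ζ₃)`. -/
theorem cat3_core {K : Type} [Field K] [NumberField K] [IsCyclotomicExtension {3} ℚ K]
    {ζ : K} (hζ : IsPrimitiveRoot ζ 3) (σ : K ≃ₐ[ℚ] K) (hσ : σ ζ = ζ ^ 2)
    (c y : K) (r : ℕ) (hc : c ≠ 0)
    (hy : σ (c ^ 3 * ζ ^ r) = (c ^ 3 * ζ ^ r) ^ 4 * y ^ 3) : 3 ∣ r := by
  have hζ0 : ζ ≠ 0 := hζ.ne_zero (by norm_num)
  have hZ3 : (ζ ^ r) ^ 3 = 1 := by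
    rw [← pow_mul, mul_comm, pow_mul, hζ.pow_eq_one, one_pow]
  have hx0 : c ^ 3 * ζ ^ r ≠ 0 := mul_ne_zero (pow_ne_zero _ hc) (pow_ne_zero _ hζ0)
  have hσx0 : σ (c ^ 3 * ζ ^ r) ≠ 0 := by
    simpa using hx0
  have hy0 : y ≠ 0 := by
    rintro rfl
    apply hσx0
    rw [hy]; simp
  have hσc : σ (c ^ 3 * ζ ^ r) = (σ c) ^ 3 * (ζ ^ r) ^ 2 := by
    rw [map_mul, map_pow, map_pow, hσ, ← pow_mul, ← pow_mul, mul_comm 2 r]
  rw [hσc] at hy
  have key : (σ c) ^ 3 = (ζ ^ r) ^ 2 * (c ^ 4 * y) ^ 3 := by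
    linear_combination (ζ ^ r) * hy + (-(σ c) ^ 3 + c ^ 12 * (ζ ^ r) ^ 2 * y ^ 3) * hZ3
  have hd0 : c ^ 4 * y ≠ 0 := mul_ne_zero (pow_ne_zero _ hc) hy0
  have hw3 : (σ c / (c ^ 4 * y)) ^ 3 = (ζ ^ r) ^ 2 := by
    rw [div_pow, key]
    field_simp
  have hw9 : (σ c / (c ^ 4 * y)) ^ 9 = 1 := by
    have : (σ c / (c ^ 4 * y)) ^ 9 = ((σ c / (c ^ 4 * y)) ^ 3) ^ 3 := by ring
    rw [this, hw3, ← pow_mul, mul_comm, pow_mul, hZ3, one_pow]
  have hfin : IsOfFinOrder (σ c / (c ^ 4 * y)) :=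
    isOfFinOrder_iff_pow_eq_one.2 ⟨9, by norm_num, hw9⟩
  obtain ⟨s, -, hs⟩ := hζ.exists_pow_or_neg_mul_pow_of_isOfFinOrder (by decide) hfin
  have hs3 : (ζ ^ s) ^ 3 = 1 := by
    rw [← pow_mul, mul_comm, pow_mul, hζ.pow_eq_one, one_pow]
  have hZ4 : ζ ^ (4 * r) = 1 := by
    have h1 : ((ζ ^ r) ^ 2) ^ 2 = 1 := by
      rw [← hw3]
      rcases hs with hs | hs
      · rw [hs, hs3, one_pow]
      · rw [hs, neg_pow, hs3]; norm_num
    rw [← h1]; ring
  have h3 : 3 ∣ 4 * r := (hζ.pow_eq_one_iff_dvd _).1 hZ4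
  exact (Nat.Coprime.dvd_mul_left (by decide : Nat.Coprime 3 4)).1 h3

/-- There is an automorphism of `K = ℚ(ζ₃)` with `galExp = 2` squaring cube roots of unity. -/
theorem cat3_exists_conj (K : Type) [Field K] [NumberField K] [IsCyclotomicExtension {3} ℚ K] :
    haveI : Fact (Nat.Prime 3) := ⟨Nat.prime_three⟩
    ∃ σ : K ≃ₐ[ℚ] K, Spec.galExp 3 K σ = 2 ∧ ∀ x : K, x ^ 3 = 1 → σ x = x ^ 2 := by
  have : Fact (Nat.Prime 3) := ⟨Nat.prime_three⟩
  have : NeZero 3 := ⟨by norm_num⟩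
  refine ⟨(JacobiSumStickelberger.cycloGalEquiv 3 K).symm (-1), ?_, ?_⟩
  · unfold Spec.galExp
    rw [MulEquiv.apply_symm_apply]
    decide
  · intro x hx
    have h := IsCyclotomicExtension.Rat.galEquivZMod_apply_of_pow_eq 3 K
      ((JacobiSumStickelberger.cycloGalEquiv 3 K).symm (-1)) hx
    have h2 : ((IsCyclotomicExtension.Rat.galEquivZMod 3 K
        ((JacobiSumStickelberger.cycloGalEquiv 3 K).symm (-1))).val).val = 2 := by
      have : IsCyclotomicExtension.Rat.galEquivZMod 3 K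
          ((JacobiSumStickelberger.cycloGalEquiv 3 K).symm (-1)) = -1 :=
        (JacobiSumStickelberger.cycloGalEquiv 3 K).apply_symm_apply (-1)
      rw [this]
      decide
    rw [h, h2]

/-- **B6**: the core arithmetic theorem for `p = 3`. -/
theorem cat3 : Spec.CAT3Statement := by
  intro K _ _ _ α h
  have : Fact (Nat.Prime 3) := ⟨Nat.prime_three⟩
  have : NeZero 3 := ⟨by norm_num⟩
  have := IsCyclotomicExtension.Rat.three_pid K
  have hζ : IsPrimitiveRoot (IsCyclotomicExtension.zeta 3 ℚ K) 3 :=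
    IsCyclotomicExtension.zeta_spec 3 ℚ K
  obtain ⟨σ, hσexp, hσ⟩ := cat3_exists_conj K
  obtain ⟨I, hI⟩ := h.ideal
  obtain ⟨γ, rfl⟩ : ∃ γ, I = Ideal.span {γ} := ⟨_, (Ideal.span_singleton_generator I).symm⟩
  rw [Ideal.span_singleton_pow, Ideal.span_singleton_eq_span_singleton] at hI
  obtain ⟨u, hu⟩ := hI.symm
  -- `hu : γ ^ 3 * u = α`
  have hα0 : (α : K) ≠ 0 := by
    simpa using h.ne_zero
  have huK : (α : K) = (γ : K) ^ 3 * ((u : 𝓞 K) : K) := by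
    rw [← hu]; simp
  have hγ0 : (γ : K) ≠ 0 := by
    rintro h0
    apply hα0
    rw [huK, h0]; simp
  have hufin : IsOfFinOrder (((u : 𝓞 K) : K)) := by
    have hmem := IsCyclotomicExtension.Rat.Three.Units.mem hζ u
    have hη3 : hζ.toInteger ^ 3 = 1 := hζ.toInteger_cube_eq_one
    have hu6 : (u : 𝓞 K) ^ 6 = 1 := by
      simp only [List.mem_cons, List.not_mem_nil, or_false] at hmem
      rcases hmem with h | h | h | h | h | h <;> rw [h] <;>
        simp only [Units.val_one, Units.val_neg, Units.val_pow_eq_pow_val, IsUnit.unit_spec,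
          one_pow]
      · norm_num
      · calc hζ.toInteger ^ 6 = (hζ.toInteger ^ 3) ^ 2 := by ring
          _ = 1 := by rw [hη3, one_pow]
      · calc (-hζ.toInteger) ^ 6 = (hζ.toInteger ^ 3) ^ 2 := by ring
          _ = 1 := by rw [hη3, one_pow]
      · calc (hζ.toInteger ^ 2) ^ 6 = (hζ.toInteger ^ 3) ^ 4 := by ring
          _ = 1 := by rw [hη3, one_pow]
      · calc (-hζ.toInteger ^ 2) ^ 6 = (hζ.toInteger ^ 3) ^ 4 := by ring
          _ = 1 := by rw [hη3, one_pow]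
    refine isOfFinOrder_iff_pow_eq_one.2 ⟨6, by norm_num, ?_⟩
    rw [← map_pow, hu6, map_one]
  obtain ⟨r, hr3, hr⟩ := hζ.exists_pow_or_neg_mul_pow_of_isOfFinOrder (by decide) hufin
  obtain ⟨y, hy⟩ := h.typeTwo σ
  rw [hσexp] at hy
  norm_num at hy
  -- reduce to `α = c ^ 3 * ζ ^ r`
  obtain ⟨c, hc0, hc⟩ : ∃ c : K, c ≠ 0 ∧ (α : K) = c ^ 3 * (IsCyclotomicExtension.zeta 3 ℚ K) ^ r := by
    rcases hr with hr | hr
    · exact ⟨γ, hγ0, by rw [huK, hr]⟩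
    · exact ⟨-γ, neg_ne_zero.2 hγ0, by rw [huK, hr]; ring⟩
  have hdiv : 3 ∣ r := by
    refine cat3_core hζ σ (hσ _ hζ.pow_eq_one) c y r hc0 ?_
    rw [← hc]; exact hy
  have hr0 : r = 0 := Nat.eq_zero_of_dvd_of_lt hdiv hr3
  exact ⟨c, by rw [hc, hr0, pow_zero, mul_one]⟩

end Fermat.Agent.S14.H178
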